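import Mathlib
import Fermat.Agent.SQ.Glue

/-!
# Program Q (S36) : commutative algebra behind `sq_kumAt` (Mathlib only)

`R` a Noetherian local ring, `𝔮` a prime such that `𝔪 = (z) + 𝔮` (a SMOOTH BRANCH : `R ⧸ 𝔮` has
principal maximal ideal).  Element-level statements, no quotient rings :

* `sqka_decomp` : every `x ∉ 𝔮` is `c z ^ k` modulo `𝔮` with `c` a unit;
* `sqka_pow_le` : `𝔪 ^ k ≤ 𝔮 ⊔ (x)` for `x ∉ 𝔮`;
* `sqka_ratio` : `a, b ∉ 𝔮`, `a ^ n ≡ υ b ^ n mod 𝔮` with `υ` a unit, `n ≠ 0` ⟹ `a ≡ ψ b mod 𝔮`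
  for a unit `ψ` (equal valuations in the branch);
* `sqka_glue` : (GLUE) over an arbitrary finite family of smooth branches, by induction from
  `sqg_glue`.
-/

set_option autoImplicit false
set_option linter.unusedSectionVars false
set_option linter.unusedVariables false

namespace Fermat.Agent.SQ

open IsLocalRing

section Branch

variable {R : Type*} [CommRing R] [IsLocalRing R] [IsNoetherianRing R]

/-- Krull intersection modulo `𝔮` : `⋂_m (𝔮 + 𝔪^m) = 𝔮`. -/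
theorem sqka_mem_of_forall_mem_sup (𝔮 : Ideal R) (x : R)
    (hx : ∀ m : ℕ, x ∈ 𝔮 ⊔ maximalIdeal R ^ m) : x ∈ 𝔮 := by
  have hK := Ideal.iInf_pow_smul_eq_bot_of_isLocalRing (R := R) (M := R ⧸ 𝔮)
    (maximalIdeal R) (Ideal.IsPrime.ne_top inferInstance)
  have hmem : (Ideal.Quotient.mk 𝔮 x : R ⧸ 𝔮) ∈
      (⨅ i : ℕ, maximalIdeal R ^ i • (⊤ : Submodule R (R ⧸ 𝔮))) := by
    rw [Submodule.mem_iInf]
    intro m
    obtain ⟨y, hy, z, hz, rfl⟩ := Submodule.mem_sup.mp (hx m)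
    rw [map_add, Ideal.Quotient.eq_zero_iff_mem.mpr hy, zero_add]
    have : (Ideal.Quotient.mk 𝔮 z : R ⧸ 𝔮) = z • (1 : R ⧸ 𝔮) := by
      rw [Algebra.smul_def, mul_one]; rfl
    rw [this]
    exact Submodule.smul_mem_smul hz Submodule.mem_top
  rw [hK, Submodule.mem_bot] at hmem
  exact Ideal.Quotient.eq_zero_iff_mem.mp hmem

/-- `𝔪^m ⊆ 𝔮 + (z^m)` when `𝔪 ⊆ (z) + 𝔮`. -/
theorem sqka_pow_le_sup (𝔮 : Ideal R) (z : R)
    (hz : maximalIdeal R ≤ Ideal.span {z} ⊔ 𝔮) (m : ℕ) :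
    maximalIdeal R ^ m ≤ 𝔮 ⊔ Ideal.span {z ^ m} := by
  induction m with
  | zero =>
    intro x _
    rw [pow_zero]
    exact Ideal.mem_sup_right (Ideal.mem_span_singleton.mpr (one_dvd x))
  | succ m ih =>
    rw [pow_succ]
    refine Ideal.mul_le.mpr fun x hx y hy => ?_
    obtain ⟨x₁, hx₁, x₂, hx₂, rfl⟩ := Submodule.mem_sup.mp (ih hx)
    obtain ⟨y₁, hy₁, y₂, hy₂, rfl⟩ := Submodule.mem_sup.mp (hz hy)
    obtain ⟨f, rfl⟩ := Ideal.mem_span_singleton.mp hx₂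
    obtain ⟨d, rfl⟩ := Ideal.mem_span_singleton.mp hy₁
    have : (x₁ + z ^ m * f) * (z * d + y₂) =
        (x₁ * (z * d + y₂) + y₂ * (z ^ m * f)) + z ^ (m + 1) * (f * d) := by ring
    rw [this]
    exact Ideal.add_mem _
      (Ideal.mem_sup_left (Ideal.add_mem _ (𝔮.mul_mem_right _ hx₁) (𝔮.mul_mem_right _ hy₂)))
      (Ideal.mem_sup_right (Ideal.mem_span_singleton.mpr (dvd_mul_right _ _)))

/-- **decomposition on a smooth branch** : `x ∉ 𝔮` is `c z ^ k` modulo `𝔮`, `c` a unit. -/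
theorem sqka_decomp (𝔮 : Ideal R) (z : R) (hzm : z ∈ maximalIdeal R)
    (hz : maximalIdeal R ≤ Ideal.span {z} ⊔ 𝔮)
    {x : R} (hx : x ∉ 𝔮) : ∃ (k : ℕ) (c : R), IsUnit c ∧ x - c * z ^ k ∈ 𝔮 := by
  classical
  -- the least `m` with `x ∉ 𝔮 + 𝔪^m`
  have hex : ∃ m : ℕ, x ∉ 𝔮 ⊔ maximalIdeal R ^ m := by
    by_contra hcon
    push Not at hcon
    exact hx (sqka_mem_of_forall_mem_sup 𝔮 x hcon)
  set m := Nat.find hex with hm
  have hm1 : x ∉ 𝔮 ⊔ maximalIdeal R ^ m := Nat.find_spec hex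
  have hm0 : m ≠ 0 := by
    intro h0
    rw [h0, pow_zero, Ideal.one_eq_top, sup_top_eq] at hm1
    exact hm1 Submodule.mem_top
  obtain ⟨k, hk⟩ := Nat.exists_eq_succ_of_ne_zero hm0
  have hk1 : x ∈ 𝔮 ⊔ maximalIdeal R ^ k := by
    by_contra hcon
    have := Nat.find_min' hex hcon
    omega
  obtain ⟨q₀, hq₀, y, hy, hxy⟩ := Submodule.mem_sup.mp (sup_le le_sup_left
    (sqka_pow_le_sup 𝔮 z hz k) hk1)
  obtain ⟨c, rfl⟩ := Ideal.mem_span_singleton.mp hy
  refine ⟨k, c, ?_, ?_⟩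
  · by_contra hnu
    have hc : c ∈ maximalIdeal R := (mem_maximalIdeal c).mpr hnu
    obtain ⟨c₁, hc₁, c₂, hc₂, hcc⟩ := Submodule.mem_sup.mp (hz hc)
    obtain ⟨d, rfl⟩ := Ideal.mem_span_singleton.mp hc₁
    apply hm1
    rw [hk, ← hxy, ← hcc]
    have h1 : q₀ + z ^ k * (z * d + c₂) = (q₀ + c₂ * z ^ k) + z ^ (k + 1) * d := by ring
    rw [h1]
    refine Ideal.add_mem _ (Ideal.mem_sup_left (Ideal.add_mem _ hq₀ (𝔮.mul_mem_right _ hc₂))) ?_
    exact Ideal.mem_sup_right (Ideal.mul_mem_right _ _ (Ideal.pow_mem_pow hzm _))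
  · have : x - c * z ^ k = q₀ := by rw [← hxy]; ring
    rw [this]; exact hq₀

/-- `𝔪 ^ k ≤ 𝔮 ⊔ (x)` for `x ∉ 𝔮` on a smooth branch. -/
theorem sqka_pow_le (𝔮 : Ideal R) (z : R) (hzm : z ∈ maximalIdeal R)
    (hz : maximalIdeal R ≤ Ideal.span {z} ⊔ 𝔮) {x : R} (hx : x ∉ 𝔮) :
    ∃ k : ℕ, maximalIdeal R ^ k ≤ 𝔮 ⊔ Ideal.span {x} := by
  obtain ⟨k, c, hc, hxc⟩ := sqka_decomp 𝔮 z hzm hz hx
  refine ⟨k, (sqka_pow_le_sup 𝔮 z hz k).trans (sup_le le_sup_left ?_)⟩
  rw [Ideal.span_singleton_le_iff_mem]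
  obtain ⟨c', hc'⟩ := hc.exists_left_inv
  have : z ^ k = c' * x - c' * (x - c * z ^ k) := by
    have : c' * x - c' * (x - c * z ^ k) = (c' * c) * z ^ k := by ring
    rw [this, hc', one_mul]
  rw [this]
  exact Ideal.sub_mem _ (Ideal.mem_sup_right (Ideal.mul_mem_left _ _ (Ideal.mem_span_singleton_self x)))
    (Ideal.mem_sup_left (𝔮.mul_mem_left _ hxc))

/-- **equal valuations on a smooth branch** : `a, b ∉ 𝔮`, `a ^ n ≡ υ b ^ n mod 𝔮` with `υ` a unit
and `n ≠ 0` ⟹ `a ≡ ψ b mod 𝔮` for a unit `ψ`. -/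
theorem sqka_ratio (𝔮 : Ideal R) [h𝔮 : 𝔮.IsPrime] (z : R) (hzm : z ∈ maximalIdeal R)
    (hz : maximalIdeal R ≤ Ideal.span {z} ⊔ 𝔮) (n : ℕ) (hn0 : n ≠ 0)
    {a b υ : R} (ha : a ∉ 𝔮) (hb : b ∉ 𝔮) (hυ : IsUnit υ) (hab : a ^ n - υ * b ^ n ∈ 𝔮) :
    ∃ ψ : R, IsUnit ψ ∧ a - ψ * b ∈ 𝔮 := by
  obtain ⟨k, ca, hca, hak⟩ := sqka_decomp 𝔮 z hzm hz ha
  obtain ⟨l, cb, hcb, hbl⟩ := sqka_decomp 𝔮 z hzm hz hb
  -- `a^n ≡ (ca z^k)^n`, `b^n ≡ (cb z^l)^n`
  have h1 : a ^ n - (ca * z ^ k) ^ n ∈ 𝔮 := by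
    obtain ⟨d, hd⟩ := sub_dvd_pow_sub_pow a (ca * z ^ k) n
    rw [hd]; exact 𝔮.mul_mem_right _ hak
  have h2 : b ^ n - (cb * z ^ l) ^ n ∈ 𝔮 := by
    obtain ⟨d, hd⟩ := sub_dvd_pow_sub_pow b (cb * z ^ l) n
    rw [hd]; exact 𝔮.mul_mem_right _ hbl
  have h3 : (ca * z ^ k) ^ n - υ * (cb * z ^ l) ^ n ∈ 𝔮 := by
    have : (ca * z ^ k) ^ n - υ * (cb * z ^ l) ^ n =
        (a ^ n - υ * b ^ n) - (a ^ n - (ca * z ^ k) ^ n) + υ * (b ^ n - (cb * z ^ l) ^ n) := by ring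
    rw [this]
    exact Ideal.add_mem _ (Ideal.sub_mem _ hab h1) (𝔮.mul_mem_left _ h2)
  -- the case `z ∈ 𝔮` : then `𝔮 = 𝔪` and `a, b` are units
  by_cases hz𝔮 : z ∈ 𝔮
  · have hle : maximalIdeal R ≤ 𝔮 := hz.trans (sup_le
      ((Ideal.span_singleton_le_iff_mem _).mpr hz𝔮) le_rfl)
    have hbu : IsUnit b := by
      by_contra hnu
      exact hb (hle ((mem_maximalIdeal b).mpr hnu))
    have hau : IsUnit a := by
      by_contra hnu
      exact ha (hle ((mem_maximalIdeal a).mpr hnu))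
    obtain ⟨b', hb'⟩ := hbu.exists_left_inv
    refine ⟨a * b', ?_, ?_⟩
    · exact hau.mul (IsUnit.of_mul_eq_one b hb')
    · have : a - a * b' * b = 0 := by
        have : a * b' * b = a * (b' * b) := by ring
        rw [this, hb', mul_one, sub_self]
      rw [this]; exact 𝔮.zero_mem
  -- `k = l`
  have hzpow : ∀ j : ℕ, z ^ j ∉ 𝔮 := fun j hj => hz𝔮 (h𝔮.mem_of_pow_mem j hj)
  have hunit_not : ∀ c : R, IsUnit c → c ∉ 𝔮 := fun c hc hc𝔮 =>
    h𝔮.ne_top (Ideal.eq_top_of_isUnit_mem _ hc𝔮 hc)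
  have hkl : k = l := by
    rcases lt_trichotomy k l with hlt | heq | hgt
    · exfalso
      obtain ⟨d, rfl⟩ := Nat.exists_eq_add_of_lt hlt
      -- `z^(nk) (ca^n - υ cb^n z^(n(d+1))) ∈ 𝔮`
      have h4 : z ^ (n * k) * (ca ^ n - υ * cb ^ n * z ^ (n * (d + 1))) ∈ 𝔮 := by
        have : z ^ (n * k) * (ca ^ n - υ * cb ^ n * z ^ (n * (d + 1))) =
            (ca * z ^ k) ^ n - υ * (cb * z ^ (k + d + 1)) ^ n := by
          rw [mul_pow, mul_pow, ← pow_mul, ← pow_mul]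
          have e1 : (k + d + 1) * n = n * k + n * (d + 1) := by ring
          rw [e1, pow_add, mul_comm k n]
          ring
        rw [this]; exact h3
      rcases h𝔮.mem_or_mem h4 with h5 | h5
      · exact hzpow _ h5
      · have h6 : ca ^ n ∈ maximalIdeal R := by
          have h7 : ca ^ n - υ * cb ^ n * z ^ (n * (d + 1)) ∈ maximalIdeal R :=
            le_maximalIdeal h𝔮.ne_top h5
          have h8 : υ * cb ^ n * z ^ (n * (d + 1)) ∈ maximalIdeal R := by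
            refine Ideal.mul_mem_left _ _ ?_
            have : n * (d + 1) = (n * (d + 1) - 1) + 1 := by
              have : 0 < n * (d + 1) := Nat.mul_pos (Nat.pos_of_ne_zero hn0) (Nat.succ_pos d)
              omega
            rw [this, pow_succ]
            exact Ideal.mul_mem_left _ _ hzm
          have : ca ^ n = (ca ^ n - υ * cb ^ n * z ^ (n * (d + 1))) +
              υ * cb ^ n * z ^ (n * (d + 1)) := by ring
          rw [this]; exact Ideal.add_mem _ h7 h8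
        exact (mem_maximalIdeal _).mp h6 (hca.pow n)
    · exact heq
    · exfalso
      obtain ⟨d, rfl⟩ := Nat.exists_eq_add_of_lt hgt
      have h4 : z ^ (n * l) * (ca ^ n * z ^ (n * (d + 1)) - υ * cb ^ n) ∈ 𝔮 := by
        have : z ^ (n * l) * (ca ^ n * z ^ (n * (d + 1)) - υ * cb ^ n) =
            (ca * z ^ (l + d + 1)) ^ n - υ * (cb * z ^ l) ^ n := by
          rw [mul_pow, mul_pow, ← pow_mul, ← pow_mul]
          have e1 : (l + d + 1) * n = n * l + n * (d + 1) := by ring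
          rw [e1, pow_add, mul_comm l n]
          ring
        rw [this]; exact h3
      rcases h𝔮.mem_or_mem h4 with h5 | h5
      · exact hzpow _ h5
      · have h6 : υ * cb ^ n ∈ maximalIdeal R := by
          have h7 : ca ^ n * z ^ (n * (d + 1)) - υ * cb ^ n ∈ maximalIdeal R :=
            le_maximalIdeal h𝔮.ne_top h5
          have h8 : ca ^ n * z ^ (n * (d + 1)) ∈ maximalIdeal R := by
            refine Ideal.mul_mem_left _ _ ?_
            have : n * (d + 1) = (n * (d + 1) - 1) + 1 := by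
              have : 0 < n * (d + 1) := Nat.mul_pos (Nat.pos_of_ne_zero hn0) (Nat.succ_pos d)
              omega
            rw [this, pow_succ]
            exact Ideal.mul_mem_left _ _ hzm
          have : υ * cb ^ n = ca ^ n * z ^ (n * (d + 1)) -
              (ca ^ n * z ^ (n * (d + 1)) - υ * cb ^ n) := by ring
          rw [this]; exact Ideal.sub_mem _ h8 h7
        exact (mem_maximalIdeal _).mp h6 (hυ.mul (hcb.pow n))
  subst hkl
  obtain ⟨cb', hcb'⟩ := hcb.exists_left_inv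
  refine ⟨ca * cb', hca.mul (IsUnit.of_mul_eq_one cb hcb'), ?_⟩
  have : a - ca * cb' * b = (a - ca * z ^ k) - ca * cb' * (b - cb * z ^ k) := by
    have e1 : ca * cb' * (cb * z ^ k) = ca * z ^ k := by
      have : ca * cb' * (cb * z ^ k) = ca * (cb' * cb) * z ^ k := by ring
      rw [this, hcb', mul_one]
    rw [mul_sub, e1]
    ring
  rw [this]
  exact Ideal.sub_mem _ hak (𝔮.mul_mem_left _ hbl)

/-- **(GLUE) over a finite family of smooth branches** : pairwise incomparable primes `𝔮 i`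
(`i ∈ S`) with `𝔪 = (z i) + 𝔮 i`; `a i ^ n ≡ υ mod 𝔮 i`, `υ` a unit, `n` a unit, `a i ≡ a j mod 𝔪`
⟹ there is `ψ` with `ψ ≡ a i mod 𝔮 i` for all `i ∈ S`. -/
theorem sqka_glue {κ : Type*} [DecidableEq κ] (S : Finset κ) (hS : S.Nonempty)
    (𝔮 : κ → Ideal R) (hprime : ∀ i ∈ S, (𝔮 i).IsPrime) (z : κ → R)
    (hzm : ∀ i ∈ S, z i ∈ maximalIdeal R)
    (hz : ∀ i ∈ S, maximalIdeal R ≤ Ideal.span {z i} ⊔ 𝔮 i)
    (hne : ∀ i ∈ S, ∀ j ∈ S, i ≠ j → ¬ 𝔮 i ≤ 𝔮 j)
    (n : ℕ) (hn : IsUnit (n : R)) (υ : R) (hυ : IsUnit υ) (a : κ → R)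
    (ha : ∀ i ∈ S, a i ^ n - υ ∈ 𝔮 i)
    (hcong : ∀ i ∈ S, ∀ j ∈ S, a i - a j ∈ maximalIdeal R) :
    ∃ ψ : R, ∀ i ∈ S, ψ - a i ∈ 𝔮 i := by
  classical
  have hn0 : n ≠ 0 := by
    rintro rfl
    rw [Nat.cast_zero] at hn
    exact not_isUnit_zero hn
  have key : ∀ S' : Finset κ, S' ⊆ S → S'.Nonempty → ∃ ψ : R, ∀ i ∈ S', ψ - a i ∈ 𝔮 i := by
    intro S'
    induction S' using Finset.induction_on with
    | empty => intro _ h; exact absurd h Finset.not_nonempty_empty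
    | insert j S' hj ih =>
      intro hsub _
      have hjS : j ∈ S := hsub (Finset.mem_insert_self _ _)
      have hS'S : S' ⊆ S := fun i hi => hsub (Finset.mem_insert_of_mem hi)
      rcases S'.eq_empty_or_nonempty with rfl | hne'
      · refine ⟨a j, fun i hi => ?_⟩
        rw [Finset.insert_empty, Finset.mem_singleton] at hi
        rw [hi, sub_self]; exact (𝔮 j).zero_mem
      · obtain ⟨ψ', hψ'⟩ := ih hS'S hne'
        have hpj : (𝔮 j).IsPrime := hprime j hjS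
        -- an element of `⨅_{i ∈ S'} 𝔮 i` outside `𝔮 j`
        have hx : ∀ i : κ, ∃ x : R, i ∈ S' → x ∈ 𝔮 i ∧ x ∉ 𝔮 j := by
          intro i
          by_cases hi : i ∈ S'
          · have hij : i ≠ j := fun h => hj (h ▸ hi)
            obtain ⟨x, hx1, hx2⟩ := SetLike.not_le_iff_exists.mp (hne i (hS'S hi) j hjS hij)
            exact ⟨x, fun _ => ⟨hx1, hx2⟩⟩
          · exact ⟨0, fun h => absurd h hi⟩
        choose x hx using hx
        set X : R := ∏ i ∈ S', x i with hX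
        have hX1 : X ∈ S'.inf 𝔮 := by
          rw [Submodule.mem_finsetInf]
          intro i hi
          exact (𝔮 i).mem_of_dvd (Finset.dvd_prod_of_mem x hi) (hx i hi).1
        have hX2 : X ∉ 𝔮 j := by
          intro hmem
          obtain ⟨i, hi, hxi⟩ := (Ideal.IsPrime.prod_mem_iff).mp hmem
          exact (hx i hi).2 hxi
        obtain ⟨k, hk⟩ := sqka_pow_le (𝔮 j) (z j) (hzm j hjS) (hz j hjS) hX2
        have hN : maximalIdeal R ^ k ≤ S'.inf 𝔮 ⊔ 𝔮 j := by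
          refine hk.trans (sup_le le_sup_right (le_sup_of_le_left ?_))
          rw [Ideal.span_singleton_le_iff_mem]
          exact hX1
        -- `a j` is a unit
        have hau : IsUnit (a j) := by
          by_contra hnu
          have h1 : a j ∈ maximalIdeal R := (mem_maximalIdeal _).mpr hnu
          have h2 : a j ^ n ∈ maximalIdeal R := Ideal.pow_mem_of_mem _ h1 n (Nat.pos_of_ne_zero hn0)
          have h3 : a j ^ n - υ ∈ maximalIdeal R := le_maximalIdeal hpj.ne_top (ha j hjS)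
          have h4 : υ ∈ maximalIdeal R := by
            have : υ = a j ^ n - (a j ^ n - υ) := by ring
            rw [this]; exact Ideal.sub_mem _ h2 h3
          exact (mem_maximalIdeal _).mp h4 hυ
        obtain ⟨b', hb'⟩ := hau.exists_right_inv
        obtain ⟨i₀, hi₀⟩ := hne'
        obtain ⟨ψ, hψ1, hψ2⟩ := sqg_glue_of_isUnit (S'.inf 𝔮) (𝔮 j) (maximalIdeal R)
          (le_maximalIdeal hpj.ne_top) k hN n hn υ ψ' (a j) b'
          (by
            rw [Submodule.mem_finsetInf]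
            intro i hi
            have h1 : ψ' ^ n - a i ^ n ∈ 𝔮 i := sqg_pow_sub_pow_mem (𝔮 i) (hψ' i hi) n
            have : ψ' ^ n - υ = (ψ' ^ n - a i ^ n) + (a i ^ n - υ) := by ring
            rw [this]
            exact Ideal.add_mem _ h1 (ha i (hS'S hi)))
          (ha j hjS)
          (by rw [hb', sub_self]; exact (𝔮 j).zero_mem)
          (by
            have h1 : ψ' - a i₀ ∈ maximalIdeal R :=
              le_maximalIdeal (hprime i₀ (hS'S hi₀)).ne_top (hψ' i₀ hi₀)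
            have : ψ' - a j = (ψ' - a i₀) + (a i₀ - a j) := by ring
            rw [this]
            exact Ideal.add_mem _ h1 (hcong i₀ (hS'S hi₀) j hjS))
        refine ⟨ψ, fun i hi => ?_⟩
        rcases Finset.mem_insert.mp hi with rfl | hi'
        · exact hψ2
        · have h1 : ψ - ψ' ∈ 𝔮 i := (Submodule.mem_finsetInf.mp hψ1) i hi'
          have : ψ - a i = (ψ - ψ') + (ψ' - a i) := by ring
          rw [this]
          exact Ideal.add_mem _ h1 (hψ' i hi')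
  exact key S le_rfl hS

end Branch

end Fermat.Agent.SQ
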